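/-
S26lib / VarSch / Dict  (helper4)  --  Project K (S26)

The dictionary between the prime ideals of a local ring `O_{X,z}` and the generisations of `z`
(through Mathlib's `Scheme.fromSpecStalk`), and the rigidity of codimension-one points.
-/
import Fermat.Agent.S26lib.Quad.LocEq

set_option autoImplicit false

universe u

open AlgebraicGeometry CategoryTheory TopologicalSpace IsLocalRing

namespace Fermat.Agent.S26lib.VarSch

variable {X : Scheme.{u}}

/-- the prime ideal of `O_{X,z}` attached to a generisation `y` of `z` -/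
noncomputable def primeOf {y z : X} (h : y ⤳ z) : Ideal (X.presheaf.stalk z) :=
  (maximalIdeal (X.presheaf.stalk y)).comap (X.presheaf.stalkSpecializes h).hom

instance isPrime_primeOf {y z : X} (h : y ⤳ z) : (primeOf h).IsPrime :=
  Ideal.comap_isPrime _ _

theorem mem_primeOf_iff {y z : X} (h : y ⤳ z) (u : X.presheaf.stalk z) :
    u ∈ primeOf h ↔ X.presheaf.stalkSpecializes h u ∈ maximalIdeal (X.presheaf.stalk y) :=
  Iff.rfl

/-- the point of `Spec O_{X,z}` attached to a generisation of `z` -/
noncomputable def specPointOf {y z : X} (h : y ⤳ z) : Spec (X.presheaf.stalk z) :=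
  (⟨primeOf h, inferInstance⟩ : PrimeSpectrum (X.presheaf.stalk z))

theorem fromSpecStalk_specPointOf {y z : X} (h : y ⤳ z) :
    X.fromSpecStalk z (specPointOf h) = y := by
  have h1 := Scheme.SpecMap_stalkSpecializes_fromSpecStalk h
  have h2 : (Spec.map (X.presheaf.stalkSpecializes h) ≫ X.fromSpecStalk z)
      (closedPoint (X.presheaf.stalk y)) = y := by
    rw [h1, Scheme.fromSpecStalk_closedPoint]
  exact h2

theorem exists_specializes_primeOf_eq (z : X) (p : Spec (X.presheaf.stalk z)) :
    ∃ h : X.fromSpecStalk z p ⤳ z, specPointOf h = p := by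
  have h : X.fromSpecStalk z p ⤳ z := by
    have : X.fromSpecStalk z p ∈ Set.range (X.fromSpecStalk z) := ⟨p, rfl⟩
    rwa [Scheme.range_fromSpecStalk] at this
  exact ⟨h, (X.fromSpecStalk z).isEmbedding.injective (fromSpecStalk_specPointOf h)⟩

/-- inclusion of the attached primes means specialisation of the points -/
theorem specializes_of_primeOf_le {y y' z : X} (h : y ⤳ z) (h' : y' ⤳ z)
    (hle : primeOf h ≤ primeOf h') : y ⤳ y' := by
  have h1 : (specPointOf h : PrimeSpectrum (X.presheaf.stalk z)) ⤳ specPointOf h' :=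
    (PrimeSpectrum.le_iff_specializes _ _).1 hle
  have h2 := h1.map (X.fromSpecStalk z).continuous
  rwa [fromSpecStalk_specPointOf, fromSpecStalk_specPointOf] at h2

theorem primeOf_le_of_specializes {y y' z : X} (h : y ⤳ z) (h' : y' ⤳ z) (hyy' : y ⤳ y') :
    primeOf h ≤ primeOf h' := by
  intro u hu
  rw [mem_primeOf_iff] at hu ⊢
  have h1 : X.presheaf.stalkSpecializes h u =
      X.presheaf.stalkSpecializes hyy' (X.presheaf.stalkSpecializes h' u) := by
    have := X.presheaf.stalkSpecializes_comp hyy' h'
    exact (congrArg (fun φ => φ.hom u) this).symm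
  by_contra hnot
  have hunit : IsUnit (X.presheaf.stalkSpecializes h' u) := by
    by_contra hn
    exact hnot ((mem_maximalIdeal _).2 hn)
  have hunit2 : IsUnit (X.presheaf.stalkSpecializes h u) := by
    rw [h1]; exact hunit.map _
  exact (mem_maximalIdeal _).1 hu hunit2

section Integral

variable [IsIntegral X]

theorem primeOf_generic (z : X) : primeOf (Quad.generic_specializes X z) = ⊥ := by
  rw [eq_bot_iff]
  intro u hu
  rw [mem_primeOf_iff] at hu
  have h0 : maximalIdeal (X.presheaf.stalk (genericPoint X)) = ⊥ :=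
    IsLocalRing.maximalIdeal_eq_bot
  rw [h0, Ideal.mem_bot] at hu
  have hu' : Quad.toFF X z u = 0 := hu
  rw [Ideal.mem_bot]
  exact Quad.toFF_injective X z (by rw [hu', map_zero])

/-- a point between the generic point and a codimension-one point is one of the two -/
theorem eq_of_specializes_of_coheight_eq_one {y₀ y : X} (h : y₀ ⤳ y)
    (h₀ : y₀ ≠ genericPoint X) (hy : Order.coheight y = 1) : y₀ = y := by
  by_contra hne
  have h1 : y < y₀ := by
    refine lt_iff_le_not_ge.mpr ⟨h, fun h' => hne ?_⟩
    exact (Specializes.antisymm h h').eq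
  have h2 : y₀ < (⊤ : X) := by
    refine lt_iff_le_not_ge.mpr ⟨le_top, fun h' => h₀ ?_⟩
    exact (Specializes.antisymm (show y₀ ⤳ genericPoint X from h')
      (genericPoint_specializes y₀)).eq
  have h3 := Order.coheight_add_one_le h1
  have h4 := Order.coheight_add_one_le h2
  rw [hy] at h3
  have h5 : (1 : ℕ∞) ≤ Order.coheight y₀ := le_trans (by simp) h4
  have h6 : (2 : ℕ∞) ≤ Order.coheight y₀ + 1 := by
    calc (2 : ℕ∞) = 1 + 1 := by norm_num
      _ ≤ Order.coheight y₀ + 1 := by gcongr
  exact absurd (le_trans h6 h3) (by norm_num)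

theorem ne_generic_of_coheight_eq_one {y : X} (hy : Order.coheight y = 1) :
    y ≠ genericPoint X := by
  rintro rfl
  have : Order.coheight (⊤ : X) = 0 := Order.coheight_top _
  have h2 : Order.coheight (genericPoint X) = 0 := this
  rw [hy] at h2
  exact one_ne_zero h2

end Integral

end Fermat.Agent.S26lib.VarSch
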