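/-
S26lib / VarSch / Points  (helper4)  --  Project K (S26)

`K`-rational points of a `K`-scheme `f : X ⟶ Spec K`: the underlying point, the evaluation
homomorphism `O_{X,a} → K`, and (for `K` algebraically closed, `f` locally of finite type) the
density of the rational points in every locally closed subset.  Mathlib objects only.
-/
import Mathlib

set_option autoImplicit false

universe u

open AlgebraicGeometry CategoryTheory TopologicalSpace IsLocalRing

namespace Fermat.Agent.S26lib.VarSch

variable {K : Type u} [Field K] {X : Scheme.{u}}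

/-- the `K`-rational points of a `K`-scheme (sections of the structure morphism) -/
abbrev KPt (f : X ⟶ Spec (CommRingCat.of K)) : Type u :=
  {p : Spec (CommRingCat.of K) ⟶ X // p ≫ f = 𝟙 _}

variable {f : X ⟶ Spec (CommRingCat.of K)}

/-- the underlying point of a rational point -/
noncomputable def KPt.pt (a : KPt f) : X := a.1 (closedPoint K)

/-- the evaluation homomorphism `O_{X,a} → K` at a rational point -/
noncomputable def evHom (a : KPt f) : X.presheaf.stalk a.pt →+* K :=
  (Scheme.stalkClosedPointTo a.1).hom

instance isLocalHom_evHom (a : KPt f) : IsLocalHom (evHom a) :=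
  Scheme.isLocalHom_stalkClosedPointTo' a.1

/-- the constant `c`, as a global section -/
noncomputable def constSec (f : X ⟶ Spec (CommRingCat.of K)) (c : K) : Γ(X, ⊤) :=
  f.appTop.hom ((Scheme.ΓSpecIso (CommRingCat.of K)).inv.hom c)

theorem evHom_germ_constSec (a : KPt f) (c : K) :
    evHom a (X.presheaf.germ ⊤ a.pt trivial (constSec f c)) = c := by
  have h := Scheme.germ_stalkClosedPointTo a.1 ⊤ trivial
  have h2 := congrArg (fun φ => φ.hom (constSec f c)) h
  simp only [CommRingCat.hom_comp, RingHom.coe_comp, Function.comp_apply] at h2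
  show (Scheme.stalkClosedPointTo a.1).hom _ = c
  erw [h2]
  have h3 : (Scheme.Hom.app a.1 ⊤).hom (constSec f c) =
      (Scheme.ΓSpecIso (CommRingCat.of K)).inv.hom c := by
    have h4 : f.appTop ≫ a.1.appTop = 𝟙 _ := by
      rw [← Scheme.Hom.comp_appTop, a.2]
      rfl
    exact congrArg (fun φ => φ.hom ((Scheme.ΓSpecIso (CommRingCat.of K)).inv.hom c)) h4
  rw [h3]
  show (Scheme.ΓSpecIso (CommRingCat.of K)).hom.hom
    (((Spec (CommRingCat.of K)).presheaf.map (𝟙 (Opposite.op ⊤))).hom
      ((Scheme.ΓSpecIso (CommRingCat.of K)).inv.hom c)) = c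
  rw [CategoryTheory.Functor.map_id]
  simp

theorem evHom_eq_zero_iff (a : KPt f) (u : X.presheaf.stalk a.pt) :
    evHom a u = 0 ↔ u ∈ maximalIdeal (X.presheaf.stalk a.pt) := by
  rw [mem_maximalIdeal, mem_nonunits_iff, ← isUnit_map_iff (evHom a) u, isUnit_iff_ne_zero,
    not_not]

theorem evHom_ne_zero_iff (a : KPt f) (u : X.presheaf.stalk a.pt) :
    evHom a u ≠ 0 ↔ IsUnit u := by
  rw [← isUnit_map_iff (evHom a) u, isUnit_iff_ne_zero]

/-- every germ at a rational point is congruent to a constant modulo the maximal ideal -/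
theorem sub_constSec_mem_maximalIdeal (a : KPt f) (u : X.presheaf.stalk a.pt) :
    u - X.presheaf.germ ⊤ a.pt trivial (constSec f (evHom a u)) ∈
      maximalIdeal (X.presheaf.stalk a.pt) := by
  rw [← evHom_eq_zero_iff, map_sub, evHom_germ_constSec, sub_self]

section AlgClosed

variable [IsAlgClosed K] [LocallyOfFiniteType f]

theorem isClosed_singleton_pt (a : KPt f) : IsClosed ({a.pt} : Set X) :=
  (pointEquivClosedPoint f a).2

theorem exists_kpt_pt_eq {x : X} (hx : IsClosed ({x} : Set X)) : ∃ a : KPt f, a.pt = x :=
  ⟨(pointEquivClosedPoint f).symm ⟨x, hx⟩, pointOfClosedPoint_apply f x hx _⟩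

/-- **density of the rational points**: every nonempty locally closed subset of a scheme locally
of finite type over an algebraically closed field contains a rational point -/
theorem exists_kpt_mem_of_isLocallyClosed {S : Set X} (hS : IsLocallyClosed S)
    (hne : S.Nonempty) : ∃ a : KPt f, a.pt ∈ S := by
  have : JacobsonSpace X := LocallyOfFiniteType.jacobsonSpace f
  have h1 := JacobsonSpace.closure_inter_closedPoints_eq_closure hS
  have h2 : (S ∩ closedPoints X).Nonempty := by
    by_contra h
    rw [Set.not_nonempty_iff_eq_empty] at h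
    rw [h, closure_empty] at h1
    exact hne.closure.ne_empty h1.symm
  obtain ⟨x, hxS, hx⟩ := h2
  obtain ⟨a, rfl⟩ := exists_kpt_pt_eq (f := f) hx
  exact ⟨a, hxS⟩

end AlgClosed

end Fermat.Agent.S26lib.VarSch
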