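/-
S26lib / VarSch / Complete  (helper4)  --  Project K (S26)

**The everywhere regular rational functions on a complete normal variety over an algebraically
closed field are constant.**  `X` integral, locally noetherian, normal; `f : X ⟶ Spec K`
universally closed and locally of finite type; `K` algebraically closed.  A rational function which
lies in the local ring of every codimension-one point is a constant.
-/
import Fermat.Agent.S26lib.P5a.HartogsScheme
import Fermat.Agent.S26lib.VarSch.Points

set_option autoImplicit false

universe u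

open AlgebraicGeometry CategoryTheory TopologicalSpace IsLocalRing Opposite

namespace Fermat.Agent.S26lib.VarSch

variable {X : Scheme.{u}} [IsIntegral X]

theorem genericPoint_mem_of_mem {U : X.Opens} {z : X} (hz : z ∈ U) : genericPoint X ∈ U :=
  (genericPoint_specializes z).mem_open U.isOpen hz

/-- **gluing**: a rational function which is a section over an open neighbourhood of every point
is a global section -/
theorem exists_global_section (x : X.functionField)
    (h : ∀ z : X, ∃ (U : X.Opens) (hz : z ∈ U) (s : Γ(X, U)),
      X.presheaf.germ U (genericPoint X) (genericPoint_mem_of_mem hz) s = x) :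
    ∃ s : Γ(X, ⊤), X.presheaf.germ ⊤ (genericPoint X) trivial s = x := by
  choose U hzU sf hsf using h
  have hcompat : TopCat.Presheaf.IsCompatible X.sheaf.1 U sf := by
    intro i j
    have hη : genericPoint X ∈ U i ⊓ U j :=
      ⟨genericPoint_mem_of_mem (hzU i), genericPoint_mem_of_mem (hzU j)⟩
    apply germ_injective_of_isIntegral X (genericPoint X) hη
    have h1 := TopCat.Presheaf.germ_res_apply X.presheaf (Opens.infLELeft (U i) (U j))
      (genericPoint X) hη (sf i)
    have h2 := TopCat.Presheaf.germ_res_apply X.presheaf (Opens.infLERight (U i) (U j))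
      (genericPoint X) hη (sf j)
    exact h1.trans ((hsf i).trans ((hsf j).symm.trans h2.symm))
  have hcover : (⊤ : X.Opens) ≤ iSup U := fun z _ => Opens.mem_iSup.2 ⟨z, hzU z⟩
  obtain ⟨s, hs, -⟩ := X.sheaf.existsUnique_gluing' U ⊤ (fun i => homOfLE le_top) hcover sf hcompat
  refine ⟨s, ?_⟩
  have z₀ : X := genericPoint X
  have h1 := TopCat.Presheaf.germ_res_apply X.presheaf (homOfLE (le_top : U z₀ ≤ ⊤))
    (genericPoint X) (genericPoint_mem_of_mem (hzU z₀)) s
  rw [← h1]
  have h2 : X.presheaf.map (homOfLE (le_top : U z₀ ≤ ⊤)).op s = sf z₀ := hs z₀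
  rw [h2, hsf z₀]

variable {K : Type u} [Field K]

/-- the global sections of a complete variety over an algebraically closed field are the
constants -/
theorem exists_constSec_eq [IsAlgClosed K] (f : X ⟶ Spec (CommRingCat.of K))
    [UniversallyClosed f] [LocallyOfFiniteType f] (s : Γ(X, ⊤)) : ∃ c : K, constSec f c = s := by
  have hfin : (f.appTop.hom).Finite := finite_appTop_of_universallyClosed K f
  let φ : K →+* Γ(X, ⊤) := f.appTop.hom.comp (Scheme.ΓSpecIso (CommRingCat.of K)).inv.hom
  have hφ : φ.IsIntegral := by
    refine RingHom.IsIntegral.trans _ _ ?_ hfin.to_isIntegral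
    exact RingHom.isIntegral_of_surjective _
      (ConcreteCategory.bijective_of_isIso (Scheme.ΓSpecIso (CommRingCat.of K)).inv).surjective
  obtain ⟨c, hc⟩ := (IsAlgClosed.ringHom_bijective_of_isIntegral φ hφ).surjective s
  exact ⟨c, hc⟩

/-- **completeness**: a rational function regular at all codimension-one points of a complete
normal variety over an algebraically closed field is constant -/
theorem exists_const_of_forall_coheight_one [IsAlgClosed K] [IsLocallyNoetherian X]
    (f : X ⟶ Spec (CommRingCat.of K)) [UniversallyClosed f] [LocallyOfFiniteType f]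
    (hN : ∀ x : X, IsIntegrallyClosed (X.presheaf.stalk x)) (x : X.functionField)
    (h : ∀ P : X, Order.coheight P = 1 →
      x ∈ (algebraMap (X.presheaf.stalk P) X.functionField).range) :
    ∃ c : K, x = X.presheaf.germ ⊤ (genericPoint X) trivial (constSec f c) := by
  have hloc : ∀ z : X, ∃ (U : X.Opens) (hz : z ∈ U) (s : Γ(X, U)),
      X.presheaf.germ U (genericPoint X) (genericPoint_mem_of_mem hz) s = x := by
    intro z
    obtain ⟨_, ⟨U, hU : IsAffineOpen U, rfl⟩, hzU, -⟩ :=
      X.isBasis_affineOpens.exists_subset_of_mem_open (Set.mem_univ z) isOpen_univ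
    have : Nonempty U := ⟨⟨z, hzU⟩⟩
    obtain ⟨s, hs⟩ := P5a.mem_range_germ_of_forall_coheight_one hN hU x (fun P _ hP => h P hP)
    exact ⟨U, hzU, s, hs⟩
  obtain ⟨s, hs⟩ := exists_global_section x hloc
  obtain ⟨c, rfl⟩ := exists_constSec_eq f s
  exact ⟨c, hs.symm⟩

end Fermat.Agent.S26lib.VarSch
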