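/-
S26lib / VarSch / LocalEq  (helper4)  --  Project K (S26)

**Local equations of prime divisors**: `X` integral, locally noetherian; `z` a point whose local
ring is a unique factorisation domain; `P` a prime divisor through `z`.  Then there is
`π ∈ O_{X,z}` with `ord_P π = 1` and `ord_{P'} π = 0` for every other prime divisor `P'` through
`z`.  (helper9's `Weil.PrimeDiv`, `Weil.ordAt`.)
-/
import Fermat.Agent.S26lib.Weil.Model
import Fermat.Agent.S26lib.P5a.Main
import Fermat.Agent.S26lib.VarSch.Dict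

set_option autoImplicit false

universe u

open AlgebraicGeometry CategoryTheory TopologicalSpace IsLocalRing

namespace Fermat.Agent.S26lib.VarSch

variable {X : Scheme.{u}} [IsIntegral X]

/-- the prime ideal of `O_{X,z}` attached to a codimension-one generisation is not zero -/
theorem primeOf_ne_bot {y z : X} (h : y ⤳ z) (hy : Order.coheight y = 1) : primeOf h ≠ ⊥ := by
  intro hbot
  have hle : primeOf h ≤ primeOf (Quad.generic_specializes X z) := by
    rw [hbot]; exact bot_le
  have h1 : y ⤳ genericPoint X := specializes_of_primeOf_le h _ hle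
  have h2 : y = genericPoint X :=
    (Specializes.antisymm h1 (genericPoint_specializes y)).eq
  exact ne_generic_of_coheight_eq_one hy h2

/-- **the prime ideal of a codimension-one generisation is generated by any prime element it
contains** -/
theorem primeOf_eq_span_of_prime {y z : X} (h : y ⤳ z) (hy : Order.coheight y = 1)
    {π : X.presheaf.stalk z} (hπ : Prime π) (hmem : π ∈ primeOf h) :
    primeOf h = Ideal.span {π} := by
  have hp : (Ideal.span {π}).IsPrime := (Ideal.span_singleton_prime hπ.ne_zero).2 hπ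
  let p₀ : Spec (X.presheaf.stalk z) :=
    (⟨Ideal.span {π}, hp⟩ : PrimeSpectrum (X.presheaf.stalk z))
  obtain ⟨h₀, hp₀⟩ := exists_specializes_primeOf_eq z p₀
  have hprime₀ : primeOf h₀ = Ideal.span {π} := by
    have := congrArg (fun q : PrimeSpectrum (X.presheaf.stalk z) => q.asIdeal) hp₀
    exact this
  have hle : primeOf h₀ ≤ primeOf h := by
    rw [hprime₀, Ideal.span_singleton_le_iff_mem]; exact hmem
  have hsp : X.fromSpecStalk z p₀ ⤳ y := specializes_of_primeOf_le h₀ h hle
  have hne : X.fromSpecStalk z p₀ ≠ genericPoint X := by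
    intro heq
    have hbot : primeOf h₀ ≤ primeOf (Quad.generic_specializes X z) :=
      primeOf_le_of_specializes h₀ _ (by rw [heq])
    rw [primeOf_generic, hprime₀, le_bot_iff, Ideal.span_singleton_eq_bot] at hbot
    exact hπ.ne_zero hbot
  have heq : X.fromSpecStalk z p₀ = y := eq_of_specializes_of_coheight_eq_one hsp hne hy
  refine le_antisymm ?_ (by rw [← hprime₀]; exact hle)
  rw [← hprime₀]
  exact primeOf_le_of_specializes h h₀ (by rw [heq])

section LN

variable [IsLocallyNoetherian X]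

/-- an element of `O_{X,z}` outside the prime ideal of a prime divisor `P` through `z` has order
zero along `P` -/
theorem ordAt_toFF_eq_zero_of_not_mem (P : Weil.PrimeDiv X) {z : X} (h : P.1 ⤳ z)
    {u : X.presheaf.stalk z} (hu : u ∉ primeOf h) : Weil.ordAt P (Quad.toFF X z u) = 0 := by
  rw [← Quad.toFF_spec X h u]
  have hunit : IsUnit (X.presheaf.stalkSpecializes h u) := by
    by_contra hn
    exact hu ((mem_primeOf_iff h u).2 ((mem_maximalIdeal _).2 hn))
  exact (Weil.ordAt_toFF_eq_zero_iff P hunit.ne_zero).2 hunit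

theorem ordAt_toFF_pos_of_mem (P : Weil.PrimeDiv X) {z : X} (h : P.1 ⤳ z)
    {u : X.presheaf.stalk z} (hu0 : u ≠ 0) (hu : u ∈ primeOf h) :
    0 < Weil.ordAt P (Quad.toFF X z u) := by
  rw [← Quad.toFF_spec X h u]
  refine Weil.ordAt_toFF_pos P ?_ ((mem_primeOf_iff h u).1 hu)
  intro h0
  apply Quad.toFF_ne_zero X hu0
  rw [← Quad.toFF_spec X h u, h0, map_zero]

/-- **Local equation of a prime divisor at a factorial point.** -/
theorem exists_localEq (z : X) [UniqueFactorizationMonoid (X.presheaf.stalk z)]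
    (P : Weil.PrimeDiv X) (hPz : P.1 ⤳ z) :
    ∃ π : X.presheaf.stalk z, π ≠ 0 ∧ Weil.ordAt P (Quad.toFF X z π) = 1 ∧
      ∀ P' : Weil.PrimeDiv X, P' ≠ P → P'.1 ⤳ z → Weil.ordAt P' (Quad.toFF X z π) = 0 := by
  have hco := Weil.coheight_primeDiv P
  obtain ⟨π, hπmem, hπ⟩ := Ideal.IsPrime.exists_mem_prime_of_ne_bot (isPrime_primeOf hPz)
    (primeOf_ne_bot hPz hco)
  have hspan := primeOf_eq_span_of_prime hPz hco hπ hπmem
  have hπ0 : Quad.toFF X z π ≠ 0 := Quad.toFF_ne_zero X hπ.ne_zero
  refine ⟨π, hπ.ne_zero, ?_, ?_⟩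
  · have hpos : 0 < Weil.ordAt P (Quad.toFF X z π) :=
      ordAt_toFF_pos_of_mem P hPz hπ.ne_zero hπmem
    obtain ⟨x, hx0, hx1⟩ := Weil.exists_ordAt_eq_one P
    obtain ⟨a, b, hb, rfl⟩ := IsFractionRing.div_surjective (A := X.presheaf.stalk z) x
    have hb0 : b ≠ 0 := nonZeroDivisors.ne_zero hb
    have ha0 : a ≠ 0 := by
      rintro rfl
      rw [map_zero, zero_div] at hx0
      exact hx0 rfl
    obtain ⟨k, a', ha', rfl⟩ := WfDvdMonoid.max_power_factor ha0 hπ.irreducible
    obtain ⟨l, b', hb', rfl⟩ := WfDvdMonoid.max_power_factor hb0 hπ.irreducible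
    have ha'0 : a' ≠ 0 := right_ne_zero_of_mul ha0
    have hb'0 : b' ≠ 0 := right_ne_zero_of_mul hb0
    have hoa : Weil.ordAt P (Quad.toFF X z a') = 0 :=
      ordAt_toFF_eq_zero_of_not_mem P hPz (by rw [hspan, Ideal.mem_span_singleton]; exact ha')
    have hob : Weil.ordAt P (Quad.toFF X z b') = 0 :=
      ordAt_toFF_eq_zero_of_not_mem P hPz (by rw [hspan, Ideal.mem_span_singleton]; exact hb')
    have hA0 : Quad.toFF X z a' ≠ 0 := Quad.toFF_ne_zero X ha'0
    have hB0 : Quad.toFF X z b' ≠ 0 := Quad.toFF_ne_zero X hb'0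
    have hx1' : Weil.ordAt P ((Quad.toFF X z π ^ k * Quad.toFF X z a') *
        (Quad.toFF X z π ^ l * Quad.toFF X z b')⁻¹) = 1 := by
      have : algebraMap (X.presheaf.stalk z) X.functionField (π ^ k * a') /
          algebraMap (X.presheaf.stalk z) X.functionField (π ^ l * b') =
          (Quad.toFF X z π ^ k * Quad.toFF X z a') *
            (Quad.toFF X z π ^ l * Quad.toFF X z b')⁻¹ := by
        rw [div_eq_mul_inv, map_mul, map_mul, map_pow, map_pow]
      rw [← this]; exact hx1
    rw [Weil.ordAt_mul P (mul_ne_zero (pow_ne_zero k hπ0) hA0)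
        (inv_ne_zero (mul_ne_zero (pow_ne_zero l hπ0) hB0)),
      P5a.ordAt_inv P (mul_ne_zero (pow_ne_zero l hπ0) hB0),
      Weil.ordAt_mul P (pow_ne_zero k hπ0) hA0, Weil.ordAt_mul P (pow_ne_zero l hπ0) hB0,
      P5a.ordAt_pow P hπ0, P5a.ordAt_pow P hπ0, hoa, hob] at hx1'
    have hdvd : Weil.ordAt P (Quad.toFF X z π) ∣ 1 := ⟨(k : ℤ) - l, by linarith⟩
    exact Int.eq_one_of_dvd_one hpos.le hdvd
  · intro P' hne h'
    refine ordAt_toFF_eq_zero_of_not_mem P' h' fun hmem' => hne ?_
    have hle : primeOf hPz ≤ primeOf h' := by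
      rw [hspan, Ideal.span_singleton_le_iff_mem]; exact hmem'
    have hsp : P.1 ⤳ P'.1 := specializes_of_primeOf_le hPz h' hle
    have heq : P.1 = P'.1 := eq_of_specializes_of_coheight_eq_one hsp
      (ne_generic_of_coheight_eq_one hco) (Weil.coheight_primeDiv P')
    exact (Subtype.ext heq).symm

end LN

end Fermat.Agent.S26lib.VarSch
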