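/-
S26lib / VarSch / OfScheme  (helper4)  --  Project K (S26)

**`VarModel.ofScheme`**: helper2's "Weil model with closed points" (`Para/Model.lean`) of an
integral noetherian scheme `X`, locally of finite type over an algebraically closed field `K`, with
factorial local rings (e.g. `X` smooth over `K`, helper8):

* `M := Weil.model f` (helper9), closed points `P := KPt f` = sections of `f`
  (= `SchemeHomOver (𝟙 _) f`),
* `thr Y := {a | Y ⤳ a}`, `ev a` := the residue map `O_{X,a} → K` (Mathlib's
  `Scheme.stalkClosedPointTo`), `thin`/`thinIn` := contained in a closed subset missing the generic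
  point of `X` / of `Y`.

Bridge lemmas: `regAt_iff` (the Krull intersection is the local ring: Hartogs), `unitAt_iff`,
`ev_toFF`, `thinAt_iff`; `complete_ofScheme` for universally closed `f`.
-/
import Fermat.Agent.S26lib.Para.Model
import Fermat.Agent.S26lib.VarSch.LocalEq
import Fermat.Agent.S26lib.VarSch.Complete

set_option autoImplicit false
set_option linter.style.haveILetI false
set_option linter.unusedSectionVars false

universe u

open AlgebraicGeometry CategoryTheory TopologicalSpace IsLocalRing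

namespace Fermat.Agent.S26lib.VarSch

variable {K : Type u} [Field K] {X : Scheme.{u}} [IsIntegral X]
  {f : X ⟶ Spec (CommRingCat.of K)}

/-! ### incidence and thin sets -/

/-- the rational points of a prime divisor -/
def thr (f : X ⟶ Spec (CommRingCat.of K)) (Y : Weil.PrimeDiv X) : Set (KPt f) :=
  {a | Y.1 ⤳ a.pt}

theorem mem_thr {Y : Weil.PrimeDiv X} {a : KPt f} : a ∈ thr f Y ↔ Y.1 ⤳ a.pt := Iff.rfl

/-- `S` is contained in a closed subset which does not contain `y` -/
def ThinAt (y : X) (S : Set (KPt f)) : Prop :=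
  ∃ Z : Set X, IsClosed Z ∧ y ∉ Z ∧ ∀ a ∈ S, a.pt ∈ Z

theorem ThinAt.mono {y : X} {S T : Set (KPt f)} (h : S ⊆ T) (hT : ThinAt y T) : ThinAt y S := by
  obtain ⟨Z, hZ, hy, hT⟩ := hT
  exact ⟨Z, hZ, hy, fun a ha => hT a (h ha)⟩

theorem ThinAt.union {y : X} {S T : Set (KPt f)} (hS : ThinAt y S) (hT : ThinAt y T) :
    ThinAt y (S ∪ T) := by
  obtain ⟨Z, hZ, hy, hS⟩ := hS
  obtain ⟨Z', hZ', hy', hT⟩ := hT
  refine ⟨Z ∪ Z', hZ.union hZ', fun h => h.elim hy hy', fun a ha => ?_⟩
  rcases ha with ha | ha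
  · exact Or.inl (hS a ha)
  · exact Or.inr (hT a ha)

theorem thinAt_empty (y : X) : ThinAt y (∅ : Set (KPt f)) :=
  ⟨∅, isClosed_empty, fun h => h, fun _ ha => ha.elim⟩

/-- the rational points of the closure of `y` are not thin at `y` (Jacobson) -/
theorem not_thinAt_specializes [IsAlgClosed K] [LocallyOfFiniteType f] (y : X) :
    ¬ ThinAt y {a : KPt f | y ⤳ a.pt} := by
  rintro ⟨Z, hZ, hy, hS⟩
  have hlc : IsLocallyClosed (closure {y} ∩ Zᶜ) :=
    isClosed_closure.isLocallyClosed.inter hZ.isOpen_compl.isLocallyClosed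
  obtain ⟨a, ha1, ha2⟩ := exists_kpt_mem_of_isLocallyClosed (f := f) hlc
    ⟨y, subset_closure rfl, hy⟩
  exact ha2 (hS a (specializes_iff_mem_closure.2 ha1))

theorem thinAt_generic_thr (Y : Weil.PrimeDiv X) : ThinAt (genericPoint X) (thr f Y) := by
  refine ⟨closure {Y.1}, isClosed_closure, fun h => ?_, fun a ha =>
    specializes_iff_mem_closure.1 ha⟩
  have h1 : Y.1 ⤳ genericPoint X := specializes_iff_mem_closure.2 h
  have h2 : Y.1 = genericPoint X := (Specializes.antisymm h1 (genericPoint_specializes _)).eq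
  exact ne_generic_of_coheight_eq_one (Weil.coheight_primeDiv Y) h2

theorem thinAt_inter (Y Y' : Weil.PrimeDiv X) (hne : Y' ≠ Y) :
    ThinAt Y.1 (thr f Y ∩ thr f Y') := by
  refine ⟨closure {Y'.1}, isClosed_closure, fun h => hne ?_, fun a ha =>
    specializes_iff_mem_closure.1 ha.2⟩
  have h1 : Y'.1 ⤳ Y.1 := specializes_iff_mem_closure.2 h
  exact Subtype.ext (eq_of_specializes_of_coheight_eq_one h1
    (ne_generic_of_coheight_eq_one (Weil.coheight_primeDiv Y')) (Weil.coheight_primeDiv Y))

/-! ### evaluation -/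

open Classical in
/-- evaluation of a rational function at a rational point (`0` if it is not regular there) -/
noncomputable def ev (a : KPt f) (x : X.functionField) : K :=
  if h : x ∈ Set.range (Quad.toFF X a.pt) then evHom a h.choose else 0

theorem ev_toFF (a : KPt f) (u : X.presheaf.stalk a.pt) :
    ev a (Quad.toFF X a.pt u) = evHom a u := by
  have h : Quad.toFF X a.pt u ∈ Set.range (Quad.toFF X a.pt) := ⟨u, rfl⟩
  unfold ev
  rw [dif_pos h]
  exact congrArg _ (Quad.toFF_injective X a.pt h.choose_spec)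

/-- the constants, inside the function field -/
theorem kToFF_eq_toFF (f : X ⟶ Spec (CommRingCat.of K)) (z : X) (c : K) :
    (kToFF f).hom c = Quad.toFF X z (X.presheaf.germ ⊤ z trivial (constSec f c)) := by
  have : Nonempty (⊤ : X.Opens) := ⟨⟨z, trivial⟩⟩
  rw [X.algebraMap_germ_eq_germToFunctionField (U := ⊤) (x := z) trivial (constSec f c)]
  rfl

theorem ev_const (a : KPt f) (c : K) : ev a ((kToFF f).hom c) = c := by
  rw [kToFF_eq_toFF f a.pt c, ev_toFF, evHom_germ_constSec]

/-! ### the local ring at a rational point, inside the Weil model -/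

section Model

variable [IsNoetherian X] (f)
  (hN : ∀ x : X, IsIntegrallyClosed (X.presheaf.stalk x))

/-- a germ at `z` is regular along every prime divisor through `z` -/
theorem ordAt_toFF_nonneg_of_specializes (Y : Weil.PrimeDiv X) {z : X} (h : Y.1 ⤳ z)
    (u : X.presheaf.stalk z) : 0 ≤ Weil.ordAt Y (Quad.toFF X z u) := by
  rw [← Quad.toFF_spec X h u]
  exact Weil.ordAt_toFF_nonneg Y _

include hN in
/-- **the Krull intersection is the local ring** (Hartogs) -/
theorem regAt_iff (a : KPt f) (x : X.functionField) :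
    letI := kAlgebraFF f
    Para.RegAt (Weil.model f) (thr f) a x ↔ x ∈ Set.range (Quad.toFF X a.pt) := by
  letI := kAlgebraFF f
  show (x = 0 ∨ ∀ Y : Weil.PrimeDiv X, a ∈ thr f Y → 0 ≤ Weil.ordAt Y x) ↔ _
  constructor
  · rintro (rfl | h)
    · exact ⟨0, map_zero _⟩
    · rcases eq_or_ne x 0 with rfl | hx
      · exact ⟨0, map_zero _⟩
      exact P5a.mem_range_stalk_of_forall_coheight_one hN a.pt x fun P hPz hP =>
        (Weil.ordAt_nonneg_iff (P5a.primeDivOf hN P hP) hx).1 (h (P5a.primeDivOf hN P hP) hPz)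
  · rintro ⟨u, rfl⟩
    exact Or.inr fun Y hY => ordAt_toFF_nonneg_of_specializes Y hY u

include hN in
/-- the units of the local ring at a rational point, inside the Weil model -/
theorem unitAt_iff (a : KPt f) (x : X.functionField) :
    letI := kAlgebraFF f
    Para.UnitAt (Weil.model f) (thr f) a x ↔
      ∃ u : X.presheaf.stalk a.pt, IsUnit u ∧ Quad.toFF X a.pt u = x := by
  letI := kAlgebraFF f
  show (x ≠ 0 ∧ ∀ Y : Weil.PrimeDiv X, a ∈ thr f Y → Weil.ordAt Y x = 0) ↔ _
  constructor
  · rintro ⟨hx, h⟩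
    have h1 : Para.RegAt (Weil.model f) (thr f) a x := Or.inr fun Y hY => (h Y hY).ge
    have h2 : Para.RegAt (Weil.model f) (thr f) a x⁻¹ := Or.inr fun Y hY => by
      show 0 ≤ Weil.ordAt Y x⁻¹
      rw [P5a.ordAt_inv Y hx, h Y hY, neg_zero]
    obtain ⟨u, hu⟩ := (regAt_iff f hN a x).1 h1
    obtain ⟨v, hv⟩ := (regAt_iff f hN a x⁻¹).1 h2
    refine ⟨u, IsUnit.of_mul_eq_one v ?_, hu⟩
    apply Quad.toFF_injective X a.pt
    rw [map_mul, map_one, hu, hv, mul_inv_cancel₀ hx]
  · rintro ⟨u, hu, rfl⟩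
    refine ⟨Quad.toFF_ne_zero X hu.ne_zero, fun Y hY => ?_⟩
    rw [← Quad.toFF_spec X hY u]
    have hu' : IsUnit (X.presheaf.stalkSpecializes hY u) := hu.map _
    exact (Weil.ordAt_toFF_eq_zero_iff Y hu'.ne_zero).2 hu'

end Model

/-! ### the model -/

section OfScheme

variable [IsAlgClosed K] [IsNoetherian X] (f) [LocallyOfFiniteType f]
  (hU : ∀ x : X, UniqueFactorizationMonoid (X.presheaf.stalk x))

omit [IsAlgClosed K] [AlgebraicGeometry.IsNoetherian X] [LocallyOfFiniteType f] in
include hU in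
theorem isIntegrallyClosed_of_ufm (x : X) : IsIntegrallyClosed (X.presheaf.stalk x) := by
  haveI := hU x
  infer_instance

/-- **the Weil model with closed points of a locally factorial variety** over an algebraically
closed field -/
noncomputable def ofScheme :
    letI := kAlgebraFF f
    Para.VarModel K X.functionField (KPt f) :=
  letI := kAlgebraFF f
  { M := Weil.model f
    thr := thr f
    ev := ev
    thin := ThinAt (genericPoint X)
    thinIn := fun Y => ThinAt Y.1
    ev_add := by
      intro a x y hx hy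
      obtain ⟨u, rfl⟩ := (regAt_iff f (isIntegrallyClosed_of_ufm hU) a x).1 hx
      obtain ⟨v, rfl⟩ := (regAt_iff f (isIntegrallyClosed_of_ufm hU) a y).1 hy
      rw [← map_add, ev_toFF, ev_toFF, ev_toFF, map_add]
    ev_mul := by
      intro a x y hx hy
      obtain ⟨u, rfl⟩ := (regAt_iff f (isIntegrallyClosed_of_ufm hU) a x).1 hx
      obtain ⟨v, rfl⟩ := (regAt_iff f (isIntegrallyClosed_of_ufm hU) a y).1 hy
      rw [← map_mul, ev_toFF, ev_toFF, ev_toFF, map_mul]
    ev_const := fun a c => ev_const a c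
    ev_ne_zero_iff := by
      intro a x hx
      obtain ⟨u, rfl⟩ := (regAt_iff f (isIntegrallyClosed_of_ufm hU) a x).1 hx
      rw [ev_toFF, evHom_ne_zero_iff, unitAt_iff f (isIntegrallyClosed_of_ufm hU)]
      constructor
      · intro hu
        exact ⟨u, hu, rfl⟩
      · rintro ⟨v, hv, hvu⟩
        rwa [← Quad.toFF_injective X a.pt hvu]
    thin_mono := fun h hT => hT.mono h
    thin_union := fun hS hT => hS.union hT
    thin_empty := thinAt_empty _
    not_thin_univ := fun h =>
      not_thinAt_specializes (f := f) (genericPoint X) (h.mono (Set.subset_univ _))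
    thin_thr := fun Y => thinAt_generic_thr Y
    thinIn_mono := fun _ _ _ h hT => hT.mono h
    thinIn_union := fun _ _ _ hS hT => hS.union hT
    thinIn_empty := fun Y => thinAt_empty _
    not_thinIn_thr := fun Y => not_thinAt_specializes (f := f) Y.1
    thinIn_inter := fun Y Y' hne => thinAt_inter Y Y' hne
    exists_localEq := by
      intro Y a ha
      haveI := hU a.pt
      obtain ⟨π, hπ0, h1, h2⟩ := exists_localEq a.pt Y ha
      exact ⟨Quad.toFF X a.pt π, Quad.toFF_ne_zero X hπ0, h1, fun Y' hne h' => h2 Y' hne h'⟩ }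

theorem ofScheme_M : letI := kAlgebraFF f; (ofScheme f hU).M = Weil.model f := rfl

theorem ofScheme_thr (Y : Weil.PrimeDiv X) :
    letI := kAlgebraFF f
    (ofScheme f hU).thr Y = thr f Y := rfl

theorem mem_ofScheme_thr (Y : Weil.PrimeDiv X) (a : KPt f) :
    letI := kAlgebraFF f
    a ∈ (ofScheme f hU).thr Y ↔ Y.1 ⤳ a.pt := Iff.rfl

theorem ofScheme_ev (a : KPt f) (x : X.functionField) :
    letI := kAlgebraFF f
    (ofScheme f hU).ev a x = ev a x := rfl

theorem ofScheme_ev_toFF (a : KPt f) (u : X.presheaf.stalk a.pt) :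
    letI := kAlgebraFF f
    (ofScheme f hU).ev a (Quad.toFF X a.pt u) = evHom a u := ev_toFF a u

theorem ofScheme_thin_iff (S : Set (KPt f)) :
    letI := kAlgebraFF f
    (ofScheme f hU).thin S ↔
      ∃ Z : Set X, IsClosed Z ∧ genericPoint X ∉ Z ∧ ∀ a ∈ S, a.pt ∈ Z := Iff.rfl

theorem ofScheme_thinIn_iff (Y : Weil.PrimeDiv X) (S : Set (KPt f)) :
    letI := kAlgebraFF f
    (ofScheme f hU).thinIn Y S ↔ ∃ Z : Set X, IsClosed Z ∧ Y.1 ∉ Z ∧ ∀ a ∈ S, a.pt ∈ Z :=
  Iff.rfl

/-- a subset of the rational points is thin iff it is contained in a proper closed subset -/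
theorem ofScheme_thin_iff' (S : Set (KPt f)) :
    letI := kAlgebraFF f
    (ofScheme f hU).thin S ↔ ∃ Z : Set X, IsClosed Z ∧ Z ≠ Set.univ ∧ ∀ a ∈ S, a.pt ∈ Z := by
  letI := kAlgebraFF f
  rw [ofScheme_thin_iff]
  constructor
  · rintro ⟨Z, hZ, hη, hS⟩
    exact ⟨Z, hZ, fun h => hη (h ▸ Set.mem_univ _), hS⟩
  · rintro ⟨Z, hZ, hne, hS⟩
    refine ⟨Z, hZ, fun hη => hne ?_, hS⟩
    rw [Set.eq_univ_iff_forall]
    intro z
    exact hZ.closure_subset_iff.2 (Set.singleton_subset_iff.2 hη)
      (specializes_iff_mem_closure.1 (genericPoint_specializes z))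

/-- `Reg a` is the local ring at `a` -/
theorem ofScheme_reg_iff (a : KPt f) (x : X.functionField) :
    letI := kAlgebraFF f
    (ofScheme f hU).Reg a x ↔ x ∈ Set.range (Quad.toFF X a.pt) :=
  regAt_iff f (isIntegrallyClosed_of_ufm hU) a x

/-- `IsUnitAt a` is the group of units of the local ring at `a` -/
theorem ofScheme_isUnitAt_iff (a : KPt f) (x : X.functionField) :
    letI := kAlgebraFF f
    (ofScheme f hU).IsUnitAt a x ↔
      ∃ u : X.presheaf.stalk a.pt, IsUnit u ∧ Quad.toFF X a.pt u = x :=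
  unitAt_iff f (isIntegrallyClosed_of_ufm hU) a x

/-- **completeness** of the model of a complete variety -/
theorem complete_ofScheme [UniversallyClosed f] :
    letI := kAlgebraFF f
    (ofScheme f hU).Complete := by
  letI := kAlgebraFF f
  intro x hx h
  obtain ⟨c, hc⟩ := exists_const_of_forall_coheight_one f (isIntegrallyClosed_of_ufm hU) x
    fun P hP => (Weil.ordAt_nonneg_iff (P5a.primeDivOf (isIntegrallyClosed_of_ufm hU) P hP) hx).1
      (h (P5a.primeDivOf (isIntegrallyClosed_of_ufm hU) P hP))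
  exact ⟨c, hc⟩

end OfScheme

end Fermat.Agent.S26lib.VarSch
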