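/-
S26lib / VarSch / Push  (helper4)  --  Project K (S26)

Push-forward of rational points along a `K`-morphism `φ : X ⟶ Y` and the compatibility of the
evaluation maps: `ev (φ a) y = ev a (φ^* y)`, in the three forms needed by the `MapModel`,
`SecModel` and `AutModel` constructors (helper1's `toFF`, `pbFF`, `FinMap.ffMap`).
-/
import Fermat.Agent.S26lib.FinMap.FFMap
import Fermat.Agent.S26lib.VarSch.OfScheme

set_option autoImplicit false
set_option linter.unusedSectionVars false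

universe u

open AlgebraicGeometry CategoryTheory TopologicalSpace IsLocalRing

namespace Fermat.Agent.S26lib.VarSch

variable {K : Type u} [Field K] {X Y Z : Scheme.{u}}
  {fX : X ⟶ Spec (CommRingCat.of K)} {fY : Y ⟶ Spec (CommRingCat.of K)}
  {fZ : Z ⟶ Spec (CommRingCat.of K)}

/-- the image of a rational point under a `K`-morphism -/
noncomputable def KPt.push (φ : X ⟶ Y) (hφ : φ ≫ fY = fX) (a : KPt fX) : KPt fY :=
  ⟨a.1 ≫ φ, by rw [Category.assoc, hφ, a.2]⟩

@[simp]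
theorem KPt.push_coe (φ : X ⟶ Y) (hφ : φ ≫ fY = fX) (a : KPt fX) :
    (a.push φ hφ).1 = a.1 ≫ φ := rfl

theorem KPt.pt_push (φ : X ⟶ Y) (hφ : φ ≫ fY = fX) (a : KPt fX) :
    (a.push φ hφ).pt = φ a.pt := rfl

theorem KPt.push_id (a : KPt fX) : a.push (𝟙 X) (Category.id_comp fX) = a :=
  Subtype.ext (Category.comp_id _)

theorem KPt.push_comp (φ : X ⟶ Y) (hφ : φ ≫ fY = fX) (ψ : Y ⟶ Z) (hψ : ψ ≫ fZ = fY)
    (a : KPt fX) :
    a.push (φ ≫ ψ) (by rw [Category.assoc, hψ, hφ]) = (a.push φ hφ).push ψ hψ :=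
  Subtype.ext (Category.assoc _ _ _).symm

/-- an isomorphism of `K`-schemes induces a bijection on rational points -/
noncomputable def KPt.pushEquiv (e : X ≅ Y) (he : e.hom ≫ fY = fX) : KPt fX ≃ KPt fY where
  toFun := KPt.push e.hom he
  invFun := KPt.push e.inv (by rw [← he, Iso.inv_hom_id_assoc])
  left_inv a := Subtype.ext (by simp [KPt.push])
  right_inv a := Subtype.ext (by simp [KPt.push])

@[simp]
theorem KPt.pushEquiv_apply (e : X ≅ Y) (he : e.hom ≫ fY = fX) (a : KPt fX) :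
    KPt.pushEquiv e he a = a.push e.hom he := rfl

/-- **evaluation is compatible with pull-back of germs** -/
theorem evHom_push (φ : X ⟶ Y) (hφ : φ ≫ fY = fX) (a : KPt fX)
    (u : Y.presheaf.stalk (φ a.pt)) :
    evHom (a.push φ hφ) u = evHom a (φ.stalkMap a.pt u) :=
  congrArg (fun ψ => ψ.hom u) (Scheme.stalkClosedPointTo_comp a.1 φ)

section Integral

variable [IsIntegral X] [IsIntegral Y]

/-- `ev`-form, for germs -/
theorem ev_push_toFF (φ : X ⟶ Y) (hφ : φ ≫ fY = fX) (a : KPt fX)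
    (u : Y.presheaf.stalk (φ a.pt)) :
    ev (a.push φ hφ) (Quad.toFF Y (φ a.pt) u) = ev a (Quad.toFF X a.pt (φ.stalkMap a.pt u)) := by
  have h1 : ev (a.push φ hφ) (Quad.toFF Y (φ a.pt) u) = evHom (a.push φ hφ) u :=
    ev_toFF (a.push φ hφ) u
  rw [h1, ev_toFF, evHom_push]

/-- **`MapModel.ev_map`**: for a dominant `φ`, `ev a (φ^* y) = ev (φ a) y` when `y` is regular at
`φ a` -/
theorem ev_ffMap (φ : X ⟶ Y) [IsDominant φ] (hφ : φ ≫ fY = fX) (a : KPt fX)
    {y : Y.functionField} (hy : y ∈ Set.range (Quad.toFF Y (φ a.pt))) :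
    ev a (FinMap.ffMap φ y) = ev (a.push φ hφ) y := by
  obtain ⟨u, rfl⟩ := hy
  rw [ev_push_toFF, FinMap.toFF_stalkMap_ffMap]

/-- `φ^*` of a function regular at `φ a` is regular at `a` -/
theorem ffMap_mem_range (φ : X ⟶ Y) [IsDominant φ] (x : X)
    {y : Y.functionField} (hy : y ∈ Set.range (Quad.toFF Y (φ x))) :
    FinMap.ffMap φ y ∈ Set.range (Quad.toFF X x) := by
  obtain ⟨u, rfl⟩ := hy
  exact ⟨φ.stalkMap x u, FinMap.toFF_stalkMap_ffMap φ x u⟩

/-- **`SecModel.ev_ρ`**: for an arbitrary `ψ : X ⟶ Y`, `ev a (ψ^* y) = ev (ψ a) y` for `y` regular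
at `ψ a` (pull-back = helper1's `pbFF` on the local ring of `ψ(η_X)`) -/
theorem ev_pbFF (ψ : X ⟶ Y) (hψ : ψ ≫ fY = fX) (a : KPt fX) (u : Y.presheaf.stalk (ψ a.pt)) :
    ev a (Quad.pbFF ψ (Y.presheaf.stalkSpecializes (Quad.map_generic_specializes ψ a.pt) u)) =
      ev (a.push ψ hψ) (Quad.toFF Y (ψ a.pt) u) := by
  rw [ev_push_toFF, Quad.toFF_stalkMap]

end Integral

end Fermat.Agent.S26lib.VarSch
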