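/-
S26lib / VarSch / Sec  (helper4)  --  Project K (S26)

**`SecModel.ofHom`**: helper2's model (`Para/Model.lean`) of an ARBITRARY `K`-morphism
`s : X ⟶ Y` between two `VarSch.ofScheme` models: `pt := KPt.push s`, `dom` := the local ring of `Y`
at `s(η_X)` inside `K(Y)`, `ρ` := helper1's `pbFF s`.  Functoriality: for a dominant `p : Y ⟶ Z`
and `c ∈ K(Z)` regular at `p(s(η_X))`, `ρ (p^* c) = (s ≫ p)^* c`, which is `ffMap (s ≫ p) c` when
`s ≫ p` is dominant and the constant `ev b c` when `s ≫ p` maps `η_X` to a rational point `b`.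
-/
import Fermat.Agent.S26lib.VarSch.Push

set_option autoImplicit false
set_option linter.style.haveILetI false
set_option linter.unusedSectionVars false

universe u

open AlgebraicGeometry CategoryTheory TopologicalSpace IsLocalRing

namespace Fermat.Agent.S26lib.VarSch

variable {K : Type u} [Field K] {X Y Z : Scheme.{u}} [IsIntegral X] [IsIntegral Y] [IsIntegral Z]
  {fX : X ⟶ Spec (CommRingCat.of K)} {fY : Y ⟶ Spec (CommRingCat.of K)}
  {fZ : Z ⟶ Spec (CommRingCat.of K)}

/-! ### constants -/

/-- pull-back of germs preserves the constants -/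
theorem stalkMap_germ_constSec (s : X ⟶ Y) (hs : s ≫ fY = fX) (x : X) (c : K) :
    s.stalkMap x (Y.presheaf.germ ⊤ (s x) trivial (constSec fY c)) =
      X.presheaf.germ ⊤ x trivial (constSec fX c) := by
  have h1 := s.germ_stalkMap_apply ⊤ x trivial (constSec fY c)
  rw [h1]
  have h2 : s.app ⊤ (constSec fY c) = constSec fX c := by
    have h3 : fY.appTop ≫ s.appTop = fX.appTop := by
      rw [← Scheme.Hom.comp_appTop, hs]
    exact congrArg (fun φ => φ.hom ((Scheme.ΓSpecIso (CommRingCat.of K)).inv.hom c)) h3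
  rw [h2]
  rfl

/-- the constants lie in every local ring -/
theorem kToFF_mem_range (fY : Y ⟶ Spec (CommRingCat.of K)) (y : Y) (c : K) :
    (kToFF fY).hom c ∈ Set.range (Quad.toFF Y y) :=
  ⟨_, (kToFF_eq_toFF fY y c).symm⟩

theorem pbFF_germ_constSec (s : X ⟶ Y) (hs : s ≫ fY = fX) (c : K) :
    Quad.pbFF s (Y.presheaf.germ ⊤ (s (genericPoint X)) trivial (constSec fY c)) =
      (kToFF fX).hom c := by
  show s.stalkMap (genericPoint X) _ = _
  rw [stalkMap_germ_constSec s hs]
  rw [kToFF_eq_toFF fX (genericPoint X) c, Quad.toFF_generic]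

/-! ### the partial comorphism -/

section Rho

variable (s : X ⟶ Y)

/-- the local ring of `Y` at the image of the generic point of `X`, as a subring of `K(Y)` -/
noncomputable def secDomRing : Subring Y.functionField :=
  (Quad.toFF Y (s (genericPoint X))).range

/-- the partial comorphism of `s`, as a function -/
noncomputable def secRhoFun (x : secDomRing s) : X.functionField :=
  Quad.pbFF s (Classical.choose x.2)

theorem secRhoFun_toFF (u : Y.presheaf.stalk (s (genericPoint X)))
    (h : Quad.toFF Y (s (genericPoint X)) u ∈ secDomRing s) :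
    secRhoFun s ⟨_, h⟩ = Quad.pbFF s u := by
  unfold secRhoFun
  congr 1
  exact Quad.toFF_injective Y _ (Classical.choose_spec h)

theorem toFF_mem_secDomRing (u : Y.presheaf.stalk (s (genericPoint X))) :
    Quad.toFF Y (s (genericPoint X)) u ∈ secDomRing s := ⟨u, rfl⟩

theorem exists_eq_toFF_of_mem_secDomRing (x : secDomRing s) :
    ∃ u : Y.presheaf.stalk (s (genericPoint X)),
      x = ⟨Quad.toFF Y (s (genericPoint X)) u, toFF_mem_secDomRing s u⟩ := by
  obtain ⟨x, u, rfl⟩ := x
  exact ⟨u, rfl⟩

/-- the partial comorphism of `s`, as a ring homomorphism -/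
noncomputable def secRho : secDomRing s →+* X.functionField where
  toFun := secRhoFun s
  map_one' := by
    have h : (1 : secDomRing s) =
        ⟨Quad.toFF Y (s (genericPoint X)) 1, toFF_mem_secDomRing s 1⟩ :=
      Subtype.ext (map_one _).symm
    exact (congrArg (secRhoFun s) h).trans ((secRhoFun_toFF s 1 _).trans (map_one _))
  map_mul' := by
    intro x y
    obtain ⟨u, rfl⟩ := exists_eq_toFF_of_mem_secDomRing s x
    obtain ⟨v, rfl⟩ := exists_eq_toFF_of_mem_secDomRing s y
    have h : (⟨Quad.toFF Y (s (genericPoint X)) u, toFF_mem_secDomRing s u⟩ : secDomRing s) *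
        ⟨Quad.toFF Y (s (genericPoint X)) v, toFF_mem_secDomRing s v⟩ =
        ⟨Quad.toFF Y (s (genericPoint X)) (u * v), toFF_mem_secDomRing s (u * v)⟩ :=
      Subtype.ext (map_mul _ u v).symm
    refine (congrArg (secRhoFun s) h).trans ((secRhoFun_toFF s (u * v) _).trans ?_)
    rw [map_mul]
    exact congrArg₂ (· * ·) (secRhoFun_toFF s u _).symm (secRhoFun_toFF s v _).symm
  map_zero' := by
    have h : (0 : secDomRing s) =
        ⟨Quad.toFF Y (s (genericPoint X)) 0, toFF_mem_secDomRing s 0⟩ :=
      Subtype.ext (map_zero _).symm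
    exact (congrArg (secRhoFun s) h).trans ((secRhoFun_toFF s 0 _).trans (map_zero _))
  map_add' := by
    intro x y
    obtain ⟨u, rfl⟩ := exists_eq_toFF_of_mem_secDomRing s x
    obtain ⟨v, rfl⟩ := exists_eq_toFF_of_mem_secDomRing s y
    have h : (⟨Quad.toFF Y (s (genericPoint X)) u, toFF_mem_secDomRing s u⟩ : secDomRing s) +
        ⟨Quad.toFF Y (s (genericPoint X)) v, toFF_mem_secDomRing s v⟩ =
        ⟨Quad.toFF Y (s (genericPoint X)) (u + v), toFF_mem_secDomRing s (u + v)⟩ :=
      Subtype.ext (map_add _ u v).symm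
    refine (congrArg (secRhoFun s) h).trans ((secRhoFun_toFF s (u + v) _).trans ?_)
    rw [map_add]
    exact congrArg₂ (· + ·) (secRhoFun_toFF s u _).symm (secRhoFun_toFF s v _).symm

theorem secRho_toFF (u : Y.presheaf.stalk (s (genericPoint X)))
    (h : Quad.toFF Y (s (genericPoint X)) u ∈ secDomRing s) :
    secRho s ⟨_, h⟩ = Quad.pbFF s u :=
  secRhoFun_toFF s u h

/-- a function regular at `s x` lies in the domain of the partial comorphism -/
theorem mem_secDomRing_of_mem_range (x : X) {y : Y.functionField}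
    (hy : y ∈ Set.range (Quad.toFF Y (s x))) : y ∈ secDomRing s := by
  obtain ⟨u, rfl⟩ := hy
  exact ⟨Y.presheaf.stalkSpecializes (Quad.map_generic_specializes s x) u,
    Quad.toFF_spec Y (Quad.map_generic_specializes s x) u⟩

/-- the pull-back of a function regular at `s x` is regular at `x` -/
theorem secRho_mem_range (x : X) {y : Y.functionField}
    (hy : y ∈ Set.range (Quad.toFF Y (s x))) :
    secRho s ⟨y, mem_secDomRing_of_mem_range s x hy⟩ ∈ Set.range (Quad.toFF X x) := by
  obtain ⟨u, rfl⟩ := hy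
  refine ⟨s.stalkMap x u, ?_⟩
  rw [Quad.toFF_stalkMap]
  have h : (⟨Quad.toFF Y (s x) u, mem_secDomRing_of_mem_range s x ⟨u, rfl⟩⟩ : secDomRing s) =
      ⟨Quad.toFF Y (s (genericPoint X))
        (Y.presheaf.stalkSpecializes (Quad.map_generic_specializes s x) u),
        toFF_mem_secDomRing s _⟩ :=
    Subtype.ext (Quad.toFF_spec Y (Quad.map_generic_specializes s x) u).symm
  exact ((congrArg (secRho s) h).trans (secRho_toFF s _ _)).symm

/-- the domain of the partial comorphism, as a `K`-subalgebra -/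
noncomputable def secDom (fY : Y ⟶ Spec (CommRingCat.of K)) :
    letI := kAlgebraFF fY
    Subalgebra K Y.functionField :=
  letI := kAlgebraFF fY
  { (secDomRing s).toSubsemiring with
    algebraMap_mem' := fun c =>
      mem_secDomRing_of_mem_range s (genericPoint X) (kToFF_mem_range fY _ c) }

theorem mem_secDom_iff (fY : Y ⟶ Spec (CommRingCat.of K)) (y : Y.functionField) :
    letI := kAlgebraFF fY
    y ∈ secDom s fY ↔ y ∈ Set.range (Quad.toFF Y (s (genericPoint X))) := Iff.rfl

/-- **the partial comorphism of a `K`-morphism**, as a `K`-algebra homomorphism -/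
noncomputable def secRhoAlg (hs : s ≫ fY = fX) :
    letI := kAlgebraFF fX
    letI := kAlgebraFF fY
    secDom s fY →ₐ[K] X.functionField :=
  letI := kAlgebraFF fX
  letI := kAlgebraFF fY
  { toFun := fun x => secRho s ⟨x.1, x.2⟩
    map_one' := map_one (secRho s)
    map_mul' := fun x y => map_mul (secRho s) ⟨x.1, x.2⟩ ⟨y.1, y.2⟩
    map_zero' := map_zero (secRho s)
    map_add' := fun x y => map_add (secRho s) ⟨x.1, x.2⟩ ⟨y.1, y.2⟩
    commutes' := fun c => by
      have h : (⟨(kToFF fY).hom c, mem_secDomRing_of_mem_range s (genericPoint X)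
          (kToFF_mem_range fY _ c)⟩ : secDomRing s) =
          ⟨Quad.toFF Y (s (genericPoint X))
            (Y.presheaf.germ ⊤ (s (genericPoint X)) trivial (constSec fY c)),
            toFF_mem_secDomRing s _⟩ :=
        Subtype.ext (kToFF_eq_toFF fY _ c)
      exact (congrArg (secRho s) h).trans ((secRho_toFF s _ _).trans
        (pbFF_germ_constSec s hs c)) }

theorem secRhoAlg_apply (hs : s ≫ fY = fX) (y : Y.functionField)
    (hy : y ∈ Set.range (Quad.toFF Y (s (genericPoint X)))) :
    letI := kAlgebraFF fX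
    letI := kAlgebraFF fY
    secRhoAlg s hs ⟨y, hy⟩ = secRho s ⟨y, hy⟩ := rfl

theorem secRhoAlg_toFF (hs : s ≫ fY = fX) (u : Y.presheaf.stalk (s (genericPoint X))) :
    letI := kAlgebraFF fX
    letI := kAlgebraFF fY
    secRhoAlg s hs ⟨Quad.toFF Y (s (genericPoint X)) u, ⟨u, rfl⟩⟩ = Quad.pbFF s u :=
  secRho_toFF s u _

end Rho

/-- **evaluation commutes with the partial comorphism** -/
theorem ev_secRho (s : X ⟶ Y) (hs : s ≫ fY = fX) (a : KPt fX) (y : Y.functionField)
    (hy : y ∈ Set.range (Quad.toFF Y (s a.pt))) :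
    ev a (secRho s ⟨y, mem_secDomRing_of_mem_range s a.pt hy⟩) = ev (a.push s hs) y := by
  obtain ⟨u, rfl⟩ := hy
  have h1 : (⟨Quad.toFF Y (s a.pt) u, mem_secDomRing_of_mem_range s a.pt ⟨u, rfl⟩⟩ :
      secDomRing s) =
      ⟨Quad.toFF Y (s (genericPoint X))
        (Y.presheaf.stalkSpecializes (Quad.map_generic_specializes s a.pt) u),
        toFF_mem_secDomRing s _⟩ :=
    Subtype.ext (Quad.toFF_spec Y (Quad.map_generic_specializes s a.pt) u).symm
  have h2 : secRho s ⟨Quad.toFF Y (s a.pt) u,
      mem_secDomRing_of_mem_range s a.pt ⟨u, rfl⟩⟩ =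
      Quad.pbFF s (Y.presheaf.stalkSpecializes (Quad.map_generic_specializes s a.pt) u) :=
    (congrArg (secRho s) h1).trans (secRho_toFF s _ _)
  rw [h2]
  exact ev_pbFF s hs a u

/-! ### functoriality -/

section Functoriality

variable (s : X ⟶ Y) (p : Y ⟶ Z)

theorem pbFF_comp (w : Z.presheaf.stalk (p (s (genericPoint X)))) :
    Quad.pbFF (s ≫ p) w = Quad.pbFF s (p.stalkMap (s (genericPoint X)) w) :=
  congrArg (fun φ => φ.hom w) (Scheme.Hom.stalkMap_comp s p (genericPoint X))

/-- the pull-back along a dominant `p` of a function regular at `p (s η_X)` lies in the domain of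
the partial comorphism of `s` -/
theorem ffMap_mem_secDomRing [IsDominant p] {c : Z.functionField}
    (hc : c ∈ Set.range (Quad.toFF Z (p (s (genericPoint X))))) :
    FinMap.ffMap p c ∈ secDomRing s := by
  obtain ⟨w, rfl⟩ := hc
  exact ⟨p.stalkMap (s (genericPoint X)) w, FinMap.toFF_stalkMap_ffMap p _ w⟩

/-- **master formula**: `ρ_s (p^* c) = (s ≫ p)^* c` on germs -/
theorem secRho_ffMap_toFF [IsDominant p] (w : Z.presheaf.stalk (p (s (genericPoint X)))) :
    secRho s ⟨FinMap.ffMap p (Quad.toFF Z (p (s (genericPoint X))) w),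
      ffMap_mem_secDomRing s p ⟨w, rfl⟩⟩ = Quad.pbFF (s ≫ p) w := by
  have h : (⟨FinMap.ffMap p (Quad.toFF Z (p (s (genericPoint X))) w),
      ffMap_mem_secDomRing s p ⟨w, rfl⟩⟩ : secDomRing s) =
      ⟨Quad.toFF Y (s (genericPoint X)) (p.stalkMap (s (genericPoint X)) w),
        toFF_mem_secDomRing s _⟩ :=
    Subtype.ext (FinMap.toFF_stalkMap_ffMap p _ w).symm
  exact (congrArg (secRho s) h).trans ((secRho_toFF s _ _).trans (pbFF_comp s p w).symm)

/-- every rational function is regular at the image of the generic point under a dominant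
morphism -/
theorem mem_range_toFF_of_isDominant (ψ : X ⟶ Z) [IsDominant ψ] (c : Z.functionField) :
    c ∈ Set.range (Quad.toFF Z (ψ (genericPoint X))) :=
  ⟨Z.presheaf.stalkSpecializes (FinMap.map_genericPoint_specializes ψ) c, by
    rw [Quad.toFF_spec Z (FinMap.map_genericPoint_specializes ψ) c, Quad.toFF_generic]⟩

/-- **functoriality, dominant case**: `ρ_s (p^* c) = (s ≫ p)^* c` -/
theorem secRho_ffMap_of_isDominant [IsDominant p] [IsDominant (s ≫ p)] (c : Z.functionField) :
    secRho s ⟨FinMap.ffMap p c,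
      ffMap_mem_secDomRing s p (mem_range_toFF_of_isDominant (s ≫ p) c)⟩ =
      FinMap.ffMap (s ≫ p) c := by
  have hc : c ∈ Set.range (Quad.toFF Z (p (s (genericPoint X)))) :=
    mem_range_toFF_of_isDominant (s ≫ p) c
  obtain ⟨w, rfl⟩ := hc
  refine (secRho_ffMap_toFF s p w).trans ?_
  have h := FinMap.toFF_stalkMap_ffMap (s ≫ p) (genericPoint X) w
  rw [Quad.toFF_generic] at h
  exact h

/-- a germ at a rational point is a constant modulo the maximal ideal (transported to any name
of the point) -/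
theorem sub_constSec_mem_maximalIdeal' (b : KPt fZ) {z : Z} (hz : z = b.pt)
    (w : Z.presheaf.stalk z) :
    w - Z.presheaf.germ ⊤ z trivial (constSec fZ (ev b (Quad.toFF Z z w))) ∈
      maximalIdeal (Z.presheaf.stalk z) := by
  subst hz
  rw [ev_toFF]
  exact sub_constSec_mem_maximalIdeal b w

/-- the pull-back along a morphism which maps the generic point to a rational point `b` is the
evaluation at `b` -/
theorem pbFF_eq_const (ψ : X ⟶ Z) (hψ : ψ ≫ fZ = fX) (b : KPt fZ)
    (hb : ψ (genericPoint X) = b.pt) (w : Z.presheaf.stalk (ψ (genericPoint X))) :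
    Quad.pbFF ψ w = (kToFF fX).hom (ev b (Quad.toFF Z (ψ (genericPoint X)) w)) := by
  have hm := sub_constSec_mem_maximalIdeal' b hb w
  have hzero : Quad.pbFF ψ (w - Z.presheaf.germ ⊤ (ψ (genericPoint X)) trivial
      (constSec fZ (ev b (Quad.toFF Z (ψ (genericPoint X)) w)))) = 0 := by
    by_contra hne
    have hu : IsUnit ((ψ.stalkMap (genericPoint X)).hom
        (w - Z.presheaf.germ ⊤ (ψ (genericPoint X)) trivial
          (constSec fZ (ev b (Quad.toFF Z (ψ (genericPoint X)) w))))) :=
      isUnit_iff_ne_zero.2 hne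
    have hu' := (isUnit_map_iff (ψ.stalkMap (genericPoint X)).hom _).1 hu
    exact (mem_maximalIdeal _).1 hm hu'
  rw [map_sub, sub_eq_zero] at hzero
  rw [hzero, pbFF_germ_constSec ψ hψ]

/-- **functoriality, constant case**: if `s ≫ p` maps the generic point of `X` to the rational
point `b`, then `ρ_s (p^* c) = c(b)` for `c` regular at `b` -/
theorem secRho_ffMap_of_const [IsDominant p] (hs : s ≫ fY = fX) (hp : p ≫ fZ = fY)
    (b : KPt fZ) (hb : p (s (genericPoint X)) = b.pt) {c : Z.functionField}
    (hc : c ∈ Set.range (Quad.toFF Z (p (s (genericPoint X))))) :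
    secRho s ⟨FinMap.ffMap p c, ffMap_mem_secDomRing s p hc⟩ = (kToFF fX).hom (ev b c) := by
  obtain ⟨w, rfl⟩ := hc
  refine (secRho_ffMap_toFF s p w).trans ?_
  exact pbFF_eq_const (s ≫ p) (by rw [Category.assoc, hp, hs]) b hb w

end Functoriality

/-! ### the model -/

section Model

variable [IsAlgClosed K] [IsNoetherian X] [IsNoetherian Y]
  [LocallyOfFiniteType fX] [LocallyOfFiniteType fY]
  (hUX : ∀ x : X, UniqueFactorizationMonoid (X.presheaf.stalk x))
  (hUY : ∀ y : Y, UniqueFactorizationMonoid (Y.presheaf.stalk y))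

/-- **`SecModel.ofHom`**: the model of an arbitrary `K`-morphism -/
noncomputable def secModelOfHom (s : X ⟶ Y) (hs : s ≫ fY = fX) :
    letI := kAlgebraFF fX
    letI := kAlgebraFF fY
    Para.SecModel (ofScheme fX hUX) (ofScheme fY hUY) (KPt.push s hs) :=
  letI := kAlgebraFF fX
  letI := kAlgebraFF fY
  { dom := secDom s fY
    ρ := secRhoAlg s hs
    reg_dom := fun a y h =>
      mem_secDomRing_of_mem_range s a.pt ((ofScheme_reg_iff fY hUY (a.push s hs) y).1 h)
    reg_ρ := fun a y h =>
      (ofScheme_reg_iff fX hUX a _).2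
        (secRho_mem_range s a.pt ((ofScheme_reg_iff fY hUY (a.push s hs) y).1 h))
    ev_ρ := fun a y h =>
      ev_secRho s hs a y ((ofScheme_reg_iff fY hUY (a.push s hs) y).1 h) }

end Model

end Fermat.Agent.S26lib.VarSch
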