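/-
S26lib / VarSch / FFun  (helper4)  --  Project K (S26)

Functoriality and `K`-linearity of helper1's comorphism `FinMap.ffMap φ : K(Y) →+* K(X)` of a
dominant morphism of integral schemes: `ffMap_comp`, `ffMap_id`, `ffMap_kToFF`, and the
`K`-algebra homomorphism / isomorphism it defines (`ffAlgHom`, `ffAlgEquiv`).
-/
import Fermat.Agent.S26lib.VarSch.Sec

set_option autoImplicit false
set_option linter.style.haveILetI false
set_option linter.unusedSectionVars false

universe u

open AlgebraicGeometry CategoryTheory TopologicalSpace IsLocalRing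

namespace Fermat.Agent.S26lib.VarSch

variable {K : Type u} [Field K] {X Y Z : Scheme.{u}} [IsIntegral X] [IsIntegral Y] [IsIntegral Z]
  {fX : X ⟶ Spec (CommRingCat.of K)} {fY : Y ⟶ Spec (CommRingCat.of K)}
  {fZ : Z ⟶ Spec (CommRingCat.of K)}

/-- the comorphism on germs at the generic point -/
theorem ffMap_toFF_generic (φ : X ⟶ Y) [IsDominant φ]
    (w : Y.presheaf.stalk (φ (genericPoint X))) :
    FinMap.ffMap φ (Quad.toFF Y (φ (genericPoint X)) w) = Quad.pbFF φ w := by
  have h := FinMap.toFF_stalkMap_ffMap φ (genericPoint X) w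
  rw [Quad.toFF_generic] at h
  exact h.symm

/-- **functoriality** of the comorphism -/
theorem ffMap_comp (φ : X ⟶ Y) (ψ : Y ⟶ Z) [IsDominant φ] [IsDominant ψ] [IsDominant (φ ≫ ψ)]
    (c : Z.functionField) :
    FinMap.ffMap (φ ≫ ψ) c = FinMap.ffMap φ (FinMap.ffMap ψ c) := by
  have hc : c ∈ Set.range (Quad.toFF Z (ψ (φ (genericPoint X)))) :=
    mem_range_toFF_of_isDominant (φ ≫ ψ) c
  obtain ⟨w, rfl⟩ := hc
  have h1 : FinMap.ffMap (φ ≫ ψ) (Quad.toFF Z (ψ (φ (genericPoint X))) w) =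
      Quad.pbFF (φ ≫ ψ) w := ffMap_toFF_generic (φ ≫ ψ) w
  rw [h1, pbFF_comp, ← FinMap.toFF_stalkMap_ffMap ψ (φ (genericPoint X)) w, ffMap_toFF_generic]

theorem ffMap_id (c : X.functionField) : FinMap.ffMap (𝟙 X) c = c := by
  have hc : c ∈ Set.range (Quad.toFF X ((𝟙 X : X ⟶ X) (genericPoint X))) :=
    mem_range_toFF_of_isDominant (𝟙 X) c
  obtain ⟨w, rfl⟩ := hc
  rw [ffMap_toFF_generic]
  show ((𝟙 X : X ⟶ X).stalkMap (genericPoint X)).hom w = _
  rw [Scheme.Hom.stalkMap_id]
  exact (Quad.toFF_generic X w).symm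

theorem ffMap_congr {φ φ' : X ⟶ Y} (h : φ = φ') [IsDominant φ] [IsDominant φ']
    (c : Y.functionField) : FinMap.ffMap φ c = FinMap.ffMap φ' c := by
  subst h
  rfl

/-- **`K`-linearity** of the comorphism of a `K`-morphism -/
theorem ffMap_kToFF (φ : X ⟶ Y) [IsDominant φ] (hφ : φ ≫ fY = fX) (c : K) :
    FinMap.ffMap φ ((kToFF fY).hom c) = (kToFF fX).hom c := by
  rw [kToFF_eq_toFF fY (φ (genericPoint X)) c, ffMap_toFF_generic, pbFF_germ_constSec φ hφ]

/-- the comorphism of a dominant `K`-morphism, as a `K`-algebra homomorphism -/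
noncomputable def ffAlgHom (φ : X ⟶ Y) [IsDominant φ] (hφ : φ ≫ fY = fX) :
    letI := kAlgebraFF fX
    letI := kAlgebraFF fY
    Y.functionField →ₐ[K] X.functionField :=
  letI := kAlgebraFF fX
  letI := kAlgebraFF fY
  { FinMap.ffMap φ with
    commutes' := fun c => ffMap_kToFF φ hφ c }

theorem ffAlgHom_apply (φ : X ⟶ Y) [IsDominant φ] (hφ : φ ≫ fY = fX) (c : Y.functionField) :
    letI := kAlgebraFF fX
    letI := kAlgebraFF fY
    ffAlgHom φ hφ c = FinMap.ffMap φ c := rfl

/-- the comorphism of an isomorphism of `K`-schemes, as a `K`-algebra isomorphism: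
`(ffAlgEquiv e he y)(a) = y(e a)` -/
noncomputable def ffAlgEquiv (e : X ≅ Y) (he : e.hom ≫ fY = fX) :
    letI := kAlgebraFF fX
    letI := kAlgebraFF fY
    Y.functionField ≃ₐ[K] X.functionField :=
  letI := kAlgebraFF fX
  letI := kAlgebraFF fY
  AlgEquiv.ofAlgHom (ffAlgHom e.hom he)
    (ffAlgHom e.inv (by rw [← he, Iso.inv_hom_id_assoc]))
    (by
      ext c
      show FinMap.ffMap e.hom (FinMap.ffMap e.inv c) = c
      have : IsDominant (e.hom ≫ e.inv) := by rw [e.hom_inv_id]; infer_instance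
      rw [← ffMap_comp e.hom e.inv c, ffMap_congr e.hom_inv_id c, ffMap_id])
    (by
      ext c
      show FinMap.ffMap e.inv (FinMap.ffMap e.hom c) = c
      have : IsDominant (e.inv ≫ e.hom) := by rw [e.inv_hom_id]; infer_instance
      rw [← ffMap_comp e.inv e.hom c, ffMap_congr e.inv_hom_id c, ffMap_id])

theorem ffAlgEquiv_apply (e : X ≅ Y) (he : e.hom ≫ fY = fX) (c : Y.functionField) :
    letI := kAlgebraFF fX
    letI := kAlgebraFF fY
    ffAlgEquiv e he c = FinMap.ffMap e.hom c := rfl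

end Fermat.Agent.S26lib.VarSch
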