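/-
S26lib / VarSch / Aut  (helper4)  --  Project K (S26)

**`AutModel.ofIso`**: helper2's model (`Para/Model.lean`) of a `K`-automorphism `e : X ≅ X` of a
`VarSch.ofScheme` model: `α := ffAlgEquiv e` (`(α y)(a) = y(e a)`), `pt := KPt.pushEquiv e`
(`a ↦ e a`), `perm Y := e⁻¹(Y)`.
-/
import Fermat.Agent.S26lib.FinMap.OrdComp
import Fermat.Agent.S26lib.VarSch.FFun

set_option autoImplicit false
set_option linter.style.haveILetI false
set_option linter.unusedSectionVars false

universe u

open AlgebraicGeometry CategoryTheory TopologicalSpace IsLocalRing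

namespace Fermat.Agent.S26lib.VarSch

variable {K : Type u} [Field K] {X : Scheme.{u}} [IsIntegral X]
  {f : X ⟶ Spec (CommRingCat.of K)}

section Perm

variable [IsLocallyNoetherian X] (e : X ≅ X)

/-- the action of an automorphism on prime divisors: `Y ↦ e⁻¹(Y)` -/
noncomputable def autPerm : Equiv.Perm (Weil.PrimeDiv X) where
  toFun := FinMap.imgPt e.inv
  invFun := FinMap.imgPt e.hom
  left_inv Y := Subtype.ext (by
    show e.hom (e.inv Y.1) = Y.1
    rw [← Scheme.Hom.comp_apply, e.inv_hom_id]; rfl)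
  right_inv Y := Subtype.ext (by
    show e.inv (e.hom Y.1) = Y.1
    rw [← Scheme.Hom.comp_apply, e.hom_inv_id]; rfl)

theorem autPerm_val (Y : Weil.PrimeDiv X) : (autPerm e Y).1 = e.inv Y.1 := rfl

theorem imgPt_autPerm (Y : Weil.PrimeDiv X) : FinMap.imgPt e.hom (autPerm e Y) = Y :=
  (autPerm e).left_inv Y

theorem ordAt_autPerm (Y : Weil.PrimeDiv X) (y : X.functionField) :
    Weil.ordAt (autPerm e Y) (FinMap.ffMap e.hom y) = Weil.ordAt Y y := by
  rw [FinMap.ordAt_ffMap e.hom (autPerm e Y) y, imgPt_autPerm]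

theorem specializes_autPerm_iff (Y : Weil.PrimeDiv X) (x : X) :
    (autPerm e Y).1 ⤳ x ↔ Y.1 ⤳ e.hom x := by
  rw [autPerm_val]
  constructor
  · intro h
    have h2 := h.map e.hom.continuous
    have h3 : e.hom (e.inv Y.1) = Y.1 := by
      rw [← Scheme.Hom.comp_apply, e.inv_hom_id]; rfl
    rwa [h3] at h2
  · intro h
    have h2 := h.map e.inv.continuous
    have h3 : e.inv (e.hom x) = x := by
      rw [← Scheme.Hom.comp_apply, e.hom_inv_id]; rfl
    rwa [h3] at h2

end Perm

section Model

variable [IsAlgClosed K] [IsNoetherian X] [LocallyOfFiniteType f]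
  (hU : ∀ x : X, UniqueFactorizationMonoid (X.presheaf.stalk x))

/-- **`AutModel.ofIso`**: the model of a `K`-automorphism -/
noncomputable def autModelOfIso (e : X ≅ X) (he : e.hom ≫ f = f) :
    letI := kAlgebraFF f
    Para.AutModel (ofScheme f hU) (ffAlgEquiv e he) (KPt.pushEquiv e he) :=
  letI := kAlgebraFF f
  { perm := autPerm e
    ord_perm := fun Y y => ordAt_autPerm e Y y
    thr_perm := fun Y a => specializes_autPerm_iff e Y a.pt
    ev_aut := fun a y h =>
      ev_ffMap e.hom he a ((ofScheme_reg_iff f hU (a.push e.hom he) y).1 h)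
    thin_preimage := by
      rintro T ⟨Z, hZ, hη, hT⟩
      refine ⟨e.hom ⁻¹' Z, hZ.preimage e.hom.continuous, ?_, fun a ha => hT _ ha⟩
      show e.hom (genericPoint X) ∉ Z
      rw [FinMap.map_genericPoint e.hom]
      exact hη }

end Model

end Fermat.Agent.S26lib.VarSch
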