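/-
S26lib / VarSch / Smooth  (helper4)  --  Project K (S26)

`VarModel.ofScheme` for an integral noetherian scheme SMOOTH over an algebraically closed field
(local factoriality = helper8's `UFD.ufm_stalk_of_smooth`), and its completeness for proper `f`.
-/
import Fermat.Agent.S26lib.UFD.Corollaries
import Fermat.Agent.S26lib.VarSch.OfScheme

set_option autoImplicit false
set_option linter.style.haveILetI false

universe u

open AlgebraicGeometry CategoryTheory TopologicalSpace

namespace Fermat.Agent.S26lib.VarSch

variable {K : Type u} [Field K] [IsAlgClosed K] {X : Scheme.{u}} [IsIntegral X] [IsNoetherian X]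
  (f : X ⟶ Spec (CommRingCat.of K)) [Smooth f]

/-- the Weil model with closed points of a smooth integral noetherian `K`-scheme -/
noncomputable def ofSmooth :
    letI := kAlgebraFF f
    Para.VarModel K X.functionField (KPt f) :=
  ofScheme f (fun x => UFD.ufm_stalk_of_smooth f x)

theorem ofSmooth_eq :
    letI := kAlgebraFF f
    ofSmooth f = ofScheme f (fun x => UFD.ufm_stalk_of_smooth f x) := rfl

theorem ofSmooth_M : letI := kAlgebraFF f; (ofSmooth f).M = Weil.model f := rfl

/-- the model of a smooth complete variety is complete -/
theorem complete_ofSmooth [UniversallyClosed f] :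
    letI := kAlgebraFF f
    (ofSmooth f).Complete :=
  complete_ofScheme f _

end Fermat.Agent.S26lib.VarSch
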