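/-
S26lib / VarSch / AbelianDiv  (helper4)  --  Project K (S26)

The divisor-side inputs of helper2's `Para.ParaData.exists_H_of_square` for the abelian variety
`A` of S26 (helper9's `Weil.U₀ L`, `Weil.D L`, `Weil.negIso L`; model `VarSch.ofScheme f _`):
`Dint L : PrimeDiv A → ℤ` is effective, reduced, of finite support, symmetric, does not pass through
a rational point of `U₀` (e.g. the origin), and `L(3D)` is finite dimensional (helper5's
`Growth.upper` + `P5a.growthHyp_abelian`).
-/
import Fermat.Agent.S26lib.Growth.FromHyp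
import Fermat.Agent.S26lib.P5a.Abelian
import Fermat.Agent.S26lib.VarSch.Aut

set_option autoImplicit false
set_option linter.style.haveILetI false
set_option linter.unusedSectionVars false

universe u

open AlgebraicGeometry CategoryTheory TopologicalSpace NeronModelInfra GoodReductionJacobian

namespace Fermat.Agent.S26lib.VarSch

variable {K : Type u} [Field K] {A : Scheme.{u}} {f : A ⟶ Spec (CommRingCat.of K)}
  (L : RelativeGroupLaw K f)

section Basic

variable [IsIntegral A]

/-- the divisor `D` of S26 with integer values -/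
noncomputable def Dint : Weil.PrimeDiv A → ℤ := fun Y => (Weil.D L Y : ℤ)

theorem Dint_nonneg (Y : Weil.PrimeDiv A) : 0 ≤ Dint L Y := Int.natCast_nonneg _

theorem Dint_eq_zero_iff (Y : Weil.PrimeDiv A) : Dint L Y = 0 ↔ Y.1 ∈ Weil.U₀ L := by
  unfold Dint
  rw [Int.natCast_eq_zero, Weil.D_eq_zero_iff]

theorem Dint_le_one (Y : Weil.PrimeDiv A) : Dint L Y ≤ 1 := by
  classical
  unfold Dint
  rw [Weil.D_apply]
  split_ifs <;> simp

theorem Dint_eq_of_mem_iff {Y Y' : Weil.PrimeDiv A} (h : Y.1 ∈ Weil.U₀ L ↔ Y'.1 ∈ Weil.U₀ L) :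
    Dint L Y = Dint L Y' := by
  classical
  unfold Dint
  rw [Weil.D_apply, Weil.D_apply]
  by_cases h1 : Y.1 ∈ Weil.U₀ L
  · rw [if_pos h1, if_pos (h.1 h1)]
  · rw [if_neg h1, if_neg (fun h2 => h1 (h.2 h2))]

/-- a prime divisor in the support of `D` does not pass through a point of `U₀` -/
theorem not_specializes_of_Dint_ne_zero {Y : Weil.PrimeDiv A} (hY : Dint L Y ≠ 0) {x : A}
    (hx : x ∈ Weil.U₀ L) : ¬ Y.1 ⤳ x := fun h =>
  hY ((Dint_eq_zero_iff L Y).2 (h.mem_open (Weil.U₀ L).isOpen hx))

/-- the origin, as a rational point, lies in `U₀` -/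
theorem onePt_pt_mem_U₀ : KPt.pt (f := f) (NMul.onePt L) ∈ Weil.U₀ L := by
  have h : KPt.pt (f := f) (NMul.onePt L) = Weil.zeroPt L := by
    show (NMul.oneHom L) _ = (NMul.oneHom L) _
    exact congrArg _ (Subsingleton.elim _ _)
  rw [h]
  exact Weil.zeroPt_mem_U₀ L

theorem onePt_not_mem_thr {Y : Weil.PrimeDiv A} (hY : Dint L Y ≠ 0) :
    (NMul.onePt L : KPt f) ∉ thr f Y :=
  not_specializes_of_Dint_ne_zero L hY (onePt_pt_mem_U₀ L)

end Basic

section Symm

variable [IsIntegral A] [IsLocallyNoetherian A]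

/-- `D` is symmetric -/
theorem Dint_autPerm_negIso (Y : Weil.PrimeDiv A) :
    Dint L (autPerm (Weil.negIso L) Y) = Dint L Y := by
  apply Dint_eq_of_mem_iff
  rw [autPerm_val]
  show (Weil.neg L) Y.1 ∈ Weil.U₀ L ↔ _
  have h := Weil.neg_preimage_U₀ L
  constructor
  · intro h1
    have : Y.1 ∈ (Weil.neg L) ⁻¹ᵁ (Weil.U₀ L) := h1
    rwa [h] at this
  · intro h1
    have : Y.1 ∈ (Weil.neg L) ⁻¹ᵁ (Weil.U₀ L) := by rwa [h]
    exact this

end Symm

section Fin

variable [IsAlgClosed K]

theorem finite_Dint_ne_zero (hA : AbelianSchemePropertyBundle K f) :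
    haveI := Weil.isIntegral_of_bundle hA
    {Y : Weil.PrimeDiv A | Dint L Y ≠ 0}.Finite := by
  haveI := Weil.isIntegral_of_bundle hA
  haveI := Weil.isNoetherian_of_bundle hA
  haveI := Weil.nonempty_U₀ L
  refine (P5a.finite_D_ne_zero (U₀ := Weil.U₀ L) (Weil.D L)
    (fun P h => (Weil.D_eq_zero_iff L P).2 h)).subset ?_
  intro Y hY h0
  exact hY (by unfold Dint; rw [h0]; rfl)

/-- **`L(3D)` is finite dimensional** -/
theorem finite_L_three_Dint (hA : AbelianSchemePropertyBundle K f) (g : ℕ)
    [SmoothOfRelativeDimension g f] :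
    haveI := Weil.isIntegral_of_bundle hA
    haveI := Weil.isNoetherian_of_bundle hA
    letI := kAlgebraFF f
    Module.Finite K ((Weil.model f).L (fun Y => 3 * Dint L Y)) := by
  haveI := Weil.isIntegral_of_bundle hA
  haveI := Weil.isNoetherian_of_bundle hA
  letI := kAlgebraFF f
  obtain ⟨C, hC⟩ := Growth.upper (Weil.model f) (Weil.D L) g (P5a.growthHyp_abelian L hA g)
  exact (hC 3).1

end Fin

/-! ### translations and inversion on rational points -/

section Points

/-- translation acts on rational points by right multiplication -/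
theorem push_transHom (a x : KPt f) :
    x.push (NMul.transHom L a) (NMul.transHom_comp L a) = L.mul (𝟙 _) x a := by
  apply Subtype.ext
  show x.1 ≫ NMul.transHom L a = _
  rw [NMul.comp_transHom L a x, NMul.basePt_id]

/-- inversion acts on rational points by the inverse -/
theorem push_invHom (x : KPt f) :
    x.push (NMul.invHom L) (NMul.invHom_comp L) = L.inv (𝟙 _) x := by
  apply Subtype.ext
  show x.1 ≫ NMul.invHom L = _
  rw [NMul.comp_invHom L x]

end Points

section AutModels

variable [IsAlgClosed K] [IsIntegral A] [IsNoetherian A] [LocallyOfFiniteType f]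
  (hU : ∀ x : A, UniqueFactorizationMonoid (A.presheaf.stalk x))

/-- the model of the translation by a rational point `a`: `(τ_a y)(x) = y(x · a)` -/
noncomputable def transAutModel (a : KPt f) :
    letI := kAlgebraFF f
    Para.AutModel (ofScheme f hU) (ffAlgEquiv (NMul.transIso L a) (NMul.transHom_comp L a))
      (KPt.pushEquiv (NMul.transIso L a) (NMul.transHom_comp L a)) :=
  autModelOfIso hU (NMul.transIso L a) (NMul.transHom_comp L a)

theorem pushEquiv_transIso_apply (a x : KPt f) :
    KPt.pushEquiv (NMul.transIso L a) (NMul.transHom_comp L a) x = L.mul (𝟙 _) x a :=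
  push_transHom L a x

/-- the model of the inversion: `(ν y)(x) = y(x⁻¹)` -/
noncomputable def negAutModel :
    letI := kAlgebraFF f
    Para.AutModel (ofScheme f hU) (ffAlgEquiv (Weil.negIso L) (Weil.neg_comp L))
      (KPt.pushEquiv (Weil.negIso L) (Weil.neg_comp L)) :=
  autModelOfIso hU (Weil.negIso L) (Weil.neg_comp L)

theorem pushEquiv_negIso_apply (x : KPt f) :
    KPt.pushEquiv (Weil.negIso L) (Weil.neg_comp L) x = L.inv (𝟙 _) x :=
  push_invHom L x

theorem negAutModel_perm :
    letI := kAlgebraFF f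
    (negAutModel L hU).perm = autPerm (Weil.negIso L) := rfl

theorem transAutModel_perm (a : KPt f) :
    letI := kAlgebraFF f
    (transAutModel L hU a).perm = autPerm (NMul.transIso L a) := rfl

end AutModels

end Fermat.Agent.S26lib.VarSch
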